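/-
Fermat/Agent/MAZ/Alg5/NilPart.lean  (helper5)

Programme MAZ (S15), brick F-ALG, part 1: **the `m`-part functor** (report 976 §0 (ALG)).

`T` a commutative ring, `η : ι → T` a family (for Mazur: `r` and the `η_q = T_q - 1 - q`, `q ∉ S`).
For a `T`-module `M`,

  `nilPart η M := {x | ∀ i, ∃ n, η i ^ n • x = 0}`     (`= M_m` for `m = (η i)` when `M` is finite).

For a FINITE module `M` there is an element `e ∈ T` acting on `M` (and on every quotient and every
submodule of `M`) as a projector onto the `m`-part (`exists_isProj`, `IsProj`); consequently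
`M ↦ M_m` is exact on finite modules:

* `exists_mem_nilPart_of_surjective` : a surjection `M → N` induces a surjection `M_m → N_m`;
* `card_nilPart_eq_mul` : `|M_m| = |(ker f)_m| * |N_m|` for a surjection `f : M → N`;
* `isCompl_nilPart_ker` : `M = M_m ⊕ ker e`.

Mathlib only.
-/
import Mathlib

set_option autoImplicit false
set_option linter.style.haveILetI false
set_option linter.unusedSectionVars false

namespace Fermat.Agent.MAZ.Alg5

universe u v w w'

variable {T : Type u} [CommRing T] {ι : Type v} (η : ι → T)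

/-- The `η`-primary part of a `T`-module: the elements killed by a power of every `η i`. -/
def nilPart (M : Type w) [AddCommGroup M] [Module T M] : Submodule T M where
  carrier := {x | ∀ i, ∃ n : ℕ, η i ^ n • x = 0}
  zero_mem' := fun _ => ⟨0, smul_zero _⟩
  add_mem' := by
    intro x y hx hy i
    obtain ⟨n, hn⟩ := hx i
    obtain ⟨m, hm⟩ := hy i
    refine ⟨n + m, ?_⟩
    have h1 : η i ^ (n + m) • x = 0 := by rw [pow_add, mul_comm, mul_smul, hn, smul_zero]
    have h2 : η i ^ (n + m) • y = 0 := by rw [pow_add, mul_smul, hm, smul_zero]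
    rw [smul_add, h1, h2, add_zero]
  smul_mem' := by
    intro t x hx i
    obtain ⟨n, hn⟩ := hx i
    exact ⟨n, by rw [smul_comm, hn, smul_zero]⟩

section Basic

variable {M : Type w} [AddCommGroup M] [Module T M] {N : Type w'} [AddCommGroup N] [Module T N]

theorem mem_nilPart_iff {x : M} : x ∈ nilPart η M ↔ ∀ i, ∃ n : ℕ, η i ^ n • x = 0 := Iff.rfl

/-- Functoriality. -/
theorem map_mem_nilPart (f : M →ₗ[T] N) {x : M} (hx : x ∈ nilPart η M) : f x ∈ nilPart η N := by
  intro i
  obtain ⟨n, hn⟩ := hx i
  exact ⟨n, by rw [← map_smul, hn, map_zero]⟩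

/-- Left exactness: for an injective map, `x ∈ M_m ↔ f x ∈ N_m`. -/
theorem mem_nilPart_iff_of_injective (f : M →ₗ[T] N) (hf : Function.Injective f) {x : M} :
    x ∈ nilPart η M ↔ f x ∈ nilPart η N := by
  refine ⟨map_mem_nilPart η f, fun hx i => ?_⟩
  obtain ⟨n, hn⟩ := hx i
  refine ⟨n, hf ?_⟩
  rw [map_smul, hn, map_zero]

/-- The `m`-part of a submodule is its intersection with the `m`-part. -/
theorem mem_nilPart_submodule_iff (P : Submodule T M) {x : P} :
    x ∈ nilPart η P ↔ (x : M) ∈ nilPart η M :=
  mem_nilPart_iff_of_injective η P.subtype P.injective_subtype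

/-- If every `η i` kills `M`, then `M_m = M`. -/
theorem nilPart_eq_top_of_smul_eq_zero (h : ∀ (i : ι) (x : M), η i • x = 0) :
    nilPart η M = ⊤ := by
  refine eq_top_iff.2 fun x _ i => ⟨1, ?_⟩
  rw [pow_one]
  exact h i x

end Basic

/-! ### Eventually idempotent powers on a finite module -/

section Idem

variable {M : Type w} [AddCommGroup M] [Module T M] {N : Type w'} [AddCommGroup N] [Module T N]

/-- On a finite module some positive power of `t` acts idempotently. -/
theorem exists_pow_idem [Finite M] (t : T) :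
    ∃ n : ℕ, 0 < n ∧ ∀ x : M, t ^ (2 * n) • x = t ^ n • x := by
  -- pigeonhole on the maps `x ↦ t ^ k • x`
  let g : ℕ → (M → M) := fun k x => t ^ k • x
  obtain ⟨a, b, hab, hg⟩ := Finite.exists_ne_map_eq_of_infinite g
  -- wlog a < b
  have key : ∀ a b : ℕ, a < b → g a = g b →
      ∃ n : ℕ, 0 < n ∧ ∀ x : M, t ^ (2 * n) • x = t ^ n • x := by
    intro a b hab hg
    obtain ⟨d, rfl⟩ : ∃ d, b = a + d := ⟨b - a, by omega⟩
    have hd : 0 < d := by omega
    have h1 : ∀ k, a ≤ k → ∀ x : M, t ^ (k + d) • x = t ^ k • x := by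
      intro k hk x
      obtain ⟨j, rfl⟩ : ∃ j, k = a + j := ⟨k - a, by omega⟩
      have e1 : t ^ (a + j + d) = t ^ j * t ^ (a + d) := by rw [← pow_add]; congr 1; omega
      have e2 : t ^ (a + j) = t ^ j * t ^ a := by rw [← pow_add]; congr 1; omega
      rw [e1, e2, mul_smul, mul_smul]
      congr 1
      exact (congrFun hg x).symm
    have h2 : ∀ m k, a ≤ k → ∀ x : M, t ^ (k + m * d) • x = t ^ k • x := by
      intro m
      induction m with
      | zero => intro k _ x; simp
      | succ m ih =>
        intro k hk x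
        have e : k + (m + 1) * d = (k + m * d) + d := by ring
        rw [e, h1 (k + m * d) (by omega) x, ih k hk x]
    refine ⟨(a + 1) * d, Nat.mul_pos (Nat.succ_pos a) hd, fun x => ?_⟩
    have e : 2 * ((a + 1) * d) = (a + 1) * d + (a + 1) * d := by ring
    rw [e]
    refine h2 (a + 1) ((a + 1) * d) ?_ x
    calc a ≤ a + 1 := Nat.le_succ a
      _ = (a + 1) * 1 := (Nat.mul_one _).symm
      _ ≤ (a + 1) * d := Nat.mul_le_mul_left _ hd
  rcases lt_or_gt_of_ne hab with h | h
  · exact key a b h hg
  · exact key b a h hg.symm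

/-- If `t ^ n` acts idempotently (`n > 0`), every `t`-nilpotent element is killed by `t ^ n`. -/
theorem pow_smul_eq_zero_of_idem {t : T} {n : ℕ} (hn : 0 < n)
    (hid : ∀ x : N, t ^ (2 * n) • x = t ^ n • x) {y : N} {k : ℕ} (hk : t ^ k • y = 0) :
    t ^ n • y = 0 := by
  have h1 : ∀ m : ℕ, t ^ (n + m * n) • y = t ^ n • y := by
    intro m
    induction m with
    | zero => simp
    | succ m ih =>
      have e : t ^ (n + (m + 1) * n) = t ^ (m * n) * t ^ (2 * n) := by
        rw [← pow_add]; congr 1; ring
      have e' : t ^ (n + m * n) = t ^ (m * n) * t ^ n := by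
        rw [← pow_add]; congr 1; ring
      rw [e, mul_smul, hid, ← mul_smul, ← e', ih]
  rw [← h1 k]
  have hle : k ≤ n + k * n := by
    calc k = k * 1 := (Nat.mul_one k).symm
      _ ≤ k * n := Nat.mul_le_mul_left _ hn
      _ ≤ n + k * n := Nat.le_add_left _ _
  obtain ⟨j, hj⟩ : ∃ j, n + k * n = j + k := ⟨n + k * n - k, by omega⟩
  rw [hj, pow_add, mul_smul, hk, smul_zero]

/-- On a finite module, finitely many of the `η i` represent all of them as operators. -/
theorem exists_finset_repr (M : Type w) [AddCommGroup M] [Module T M] [Finite M] :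
    ∃ s : Finset ι, ∀ i, ∃ j ∈ s, ∀ x : M, η i • x = η j • x := by
  classical
  let g : ι → (M → M) := fun i x => η i • x
  haveI : Finite (Set.range g) := inferInstance
  haveI := Fintype.ofFinite (Set.range g)
  have hex : ∀ f : Set.range g, ∃ i, g i = f.1 := fun f => f.2
  choose pre hpre using hex
  refine ⟨Finset.univ.image pre, fun i => ⟨pre ⟨g i, i, rfl⟩,
    Finset.mem_image_of_mem _ (Finset.mem_univ _), fun x => ?_⟩⟩
  exact (congrFun (hpre ⟨g i, i, rfl⟩) x).symm

end Idem

/-! ### The projector -/

/-- `Good η s n M`: the finitely many indices in `s` represent all the operators `η i` on `M`, and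
for `j ∈ s` the power `η j ^ n j` (`n j > 0`) acts idempotently on `M`. -/
def Good (s : Finset ι) (n : ι → ℕ) (M : Type w) [AddCommGroup M] [Module T M] : Prop :=
  (∀ i, ∃ j ∈ s, ∀ x : M, η i • x = η j • x) ∧
    ∀ j ∈ s, 0 < n j ∧ ∀ x : M, η j ^ (2 * n j) • x = η j ^ n j • x

/-- The candidate projector attached to `(s, n)`. -/
def proj (s : Finset ι) (n : ι → ℕ) : T := ∏ j ∈ s, (1 - η j ^ n j)

/-- `IsProj η e N`: the element `e` of `T` acts on `N` as a projector onto the `m`-part. -/
def IsProj (e : T) (N : Type w) [AddCommGroup N] [Module T N] : Prop :=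
  (∀ y : N, e • y ∈ nilPart η N) ∧ ∀ y ∈ nilPart η N, e • y = y

section Proj

variable {M : Type w} [AddCommGroup M] [Module T M] {N : Type w'} [AddCommGroup N] [Module T N]

theorem exists_good (M : Type w) [AddCommGroup M] [Module T M] [Finite M] :
    ∃ (s : Finset ι) (n : ι → ℕ), Good η s n M := by
  obtain ⟨s, hs⟩ := exists_finset_repr η M
  have h := fun j : ι => exists_pow_idem (M := M) (η j)
  choose n hn using h
  exact ⟨s, n, hs, fun j _ => hn j⟩

/-- `Good` passes to quotients. -/
theorem Good.of_surjective {s : Finset ι} {n : ι → ℕ} (h : Good η s n M) (f : M →ₗ[T] N)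
    (hf : Function.Surjective f) : Good η s n N := by
  refine ⟨fun i => ?_, fun j hj => ⟨(h.2 j hj).1, fun y => ?_⟩⟩
  · obtain ⟨j, hj, hij⟩ := h.1 i
    refine ⟨j, hj, fun y => ?_⟩
    obtain ⟨x, rfl⟩ := hf y
    rw [← map_smul, ← map_smul, hij]
  · obtain ⟨x, rfl⟩ := hf y
    rw [← map_smul, ← map_smul, (h.2 j hj).2]

/-- `Good` passes to submodules (more generally along injective maps). -/
theorem Good.of_injective {s : Finset ι} {n : ι → ℕ} (h : Good η s n N) (f : M →ₗ[T] N)
    (hf : Function.Injective f) : Good η s n M := by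
  refine ⟨fun i => ?_, fun j hj => ⟨(h.2 j hj).1, fun x => hf ?_⟩⟩
  · obtain ⟨j, hj, hij⟩ := h.1 i
    refine ⟨j, hj, fun x => hf ?_⟩
    rw [map_smul, map_smul, hij]
  · rw [map_smul, map_smul, (h.2 j hj).2]

theorem pow_smul_eq_of_smul_eq {a b : T} (h : ∀ x : N, a • x = b • x) (k : ℕ) (x : N) :
    a ^ k • x = b ^ k • x := by
  induction k generalizing x with
  | zero => simp
  | succ k ih => rw [pow_succ, pow_succ, mul_smul, mul_smul, h x, ih]

/-- The element `proj η s n` is a projector onto the `m`-part of every module which is `Good`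
for `(s, n)`. -/
theorem Good.isProj {s : Finset ι} {n : ι → ℕ} (h : Good η s n N) :
    IsProj η (proj η s n) N := by
  classical
  refine ⟨fun y i => ?_, fun y hy => ?_⟩
  · obtain ⟨j, hj, hij⟩ := h.1 i
    refine ⟨n j, ?_⟩
    rw [pow_smul_eq_of_smul_eq hij]
    have e : proj η s n = (1 - η j ^ n j) * ∏ j' ∈ s.erase j, (1 - η j' ^ n j') :=
      (Finset.mul_prod_erase s (fun j' => 1 - η j' ^ n j') hj).symm
    rw [e, ← mul_smul, ← mul_assoc, mul_smul]
    have : η j ^ n j * (1 - η j ^ n j) = η j ^ n j - η j ^ (2 * n j) := by ring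
    rw [this, sub_smul, (h.2 j hj).2, sub_self]
  · have hkill : ∀ j ∈ s, η j ^ n j • y = 0 := fun j hj => by
      obtain ⟨k, hk⟩ := hy j
      exact pow_smul_eq_zero_of_idem (h.2 j hj).1 (h.2 j hj).2 hk
    have : ∀ s' : Finset ι, s' ⊆ s → (∏ j ∈ s', (1 - η j ^ n j)) • y = y := by
      intro s'
      induction s' using Finset.induction_on with
      | empty => intro _; simp
      | insert a s' ha ih =>
        intro hs'
        rw [Finset.prod_insert ha, mul_comm, mul_smul, sub_smul, one_smul,
          hkill a (hs' (Finset.mem_insert_self a s')), sub_zero]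
        exact ih fun j hj => hs' (Finset.mem_insert_of_mem hj)
    exact this s (Finset.Subset.refl s)

/-- **Existence of the projector**: for a finite module `M` there is `e ∈ T` acting as a
projector onto the `m`-part on `M`, on all its quotients and on all its submodules. -/
theorem exists_isProj (M : Type w) [AddCommGroup M] [Module T M] [Finite M] :
    ∃ e : T, IsProj η e M ∧
      (∀ (N : Type w') [AddCommGroup N] [Module T N] (f : M →ₗ[T] N),
        Function.Surjective f → IsProj η e N) ∧
      (∀ (N : Type w') [AddCommGroup N] [Module T N] (f : N →ₗ[T] M),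
        Function.Injective f → IsProj η e N) := by
  obtain ⟨s, n, h⟩ := exists_good η M
  exact ⟨proj η s n, h.isProj η, fun N _ _ f hf => (h.of_surjective η f hf).isProj η,
    fun N _ _ f hf => (h.of_injective η f hf).isProj η⟩

/-- A common projector for two finite modules. -/
theorem exists_isProj₂ (M : Type w) [AddCommGroup M] [Module T M] [Finite M]
    (N : Type w') [AddCommGroup N] [Module T N] [Finite N] :
    ∃ e : T, IsProj η e M ∧ IsProj η e N := by
  obtain ⟨s, n, h⟩ := exists_good η (M × N)
  exact ⟨proj η s n,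
    (h.of_surjective η (LinearMap.fst T M N) Prod.fst_surjective).isProj η,
    (h.of_surjective η (LinearMap.snd T M N) Prod.snd_surjective).isProj η⟩

theorem IsProj.smul_smul {e : T} (h : IsProj η e N) (y : N) : e • e • y = e • y :=
  h.2 _ (h.1 y)

theorem IsProj.mem_iff {e : T} (h : IsProj η e N) {y : N} : y ∈ nilPart η N ↔ e • y = y :=
  ⟨h.2 y, fun hy => hy ▸ h.1 y⟩

/-- `N = N_m ⊕ ker e`. -/
theorem IsProj.isCompl {e : T} (h : IsProj η e N) :
    IsCompl (nilPart η N) (LinearMap.ker (LinearMap.lsmul T N e)) := by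
  refine ⟨?_, ?_⟩
  · rw [Submodule.disjoint_def]
    intro y hy hy'
    have h0 : e • y = 0 := by simpa using hy'
    rw [← h.2 y hy, h0]
  · rw [codisjoint_iff, eq_top_iff]
    intro y _
    have : y = e • y + (y - e • y) := by abel
    rw [this]
    refine Submodule.add_mem_sup (h.1 y) ?_
    simp only [LinearMap.mem_ker, LinearMap.lsmul_apply]
    rw [smul_sub, h.smul_smul, sub_self]

end Proj

/-! ### Exactness -/

section Exact

variable {M : Type w} [AddCommGroup M] [Module T M] {N : Type w'} [AddCommGroup N] [Module T N]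

/-- **Right exactness of the `m`-part on finite modules**: a surjection `M → N` induces a
surjection `M_m → N_m`. -/
theorem exists_mem_nilPart_of_surjective [Finite M] (f : M →ₗ[T] N) (hf : Function.Surjective f)
    {y : N} (hy : y ∈ nilPart η N) : ∃ x ∈ nilPart η M, f x = y := by
  obtain ⟨s, n, h⟩ := exists_good η M
  have hM := h.isProj η
  have hN := (h.of_surjective η f hf).isProj η
  obtain ⟨x, rfl⟩ := hf y
  exact ⟨proj η s n • x, hM.1 x, by rw [map_smul, hN.2 _ hy]⟩

theorem map_nilPart_eq_of_surjective [Finite M] (f : M →ₗ[T] N) (hf : Function.Surjective f) :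
    (nilPart η M).map f = nilPart η N := by
  apply le_antisymm
  · rintro _ ⟨x, hx, rfl⟩
    exact map_mem_nilPart η f hx
  · intro y hy
    obtain ⟨x, hx, rfl⟩ := exists_mem_nilPart_of_surjective η f hf hy
    exact ⟨x, hx, rfl⟩

/-- If `M_m = 0` then `N_m = 0` for every quotient `N` of the finite module `M`. -/
theorem nilPart_eq_bot_of_surjective [Finite M] (f : M →ₗ[T] N) (hf : Function.Surjective f)
    (h : nilPart η M = ⊥) : nilPart η N = ⊥ := by
  rw [← map_nilPart_eq_of_surjective η f hf, h, Submodule.map_bot]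

/-- **Multiplicativity of `|M_m|`** along a surjection `f : M → N` of finite modules:
`|M_m| = |(ker f)_m| * |N_m|`. -/
theorem card_nilPart_eq_mul [Finite M] (f : M →ₗ[T] N) (hf : Function.Surjective f) :
    Nat.card (nilPart η M) =
      Nat.card (nilPart η (LinearMap.ker f)) * Nat.card (nilPart η N) := by
  -- the restriction `φ : M_m → N_m`
  let φ : nilPart η M →ₗ[T] nilPart η N :=
    (f.comp (nilPart η M).subtype).codRestrict (nilPart η N)
      fun x => map_mem_nilPart η f x.2
  have hφ : Function.Surjective φ := by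
    rintro ⟨y, hy⟩
    obtain ⟨x, hx, rfl⟩ := exists_mem_nilPart_of_surjective η f hf hy
    exact ⟨⟨x, hx⟩, rfl⟩
  have h1 : Nat.card (LinearMap.ker φ) * Nat.card (nilPart η N) = Nat.card (nilPart η M) := by
    have := AddSubgroup.card_mul_index (φ.toAddMonoidHom.ker)
    rw [AddSubgroup.index_ker] at this
    have hr : Nat.card (φ.toAddMonoidHom.range) = Nat.card (nilPart η N) := by
      have : φ.toAddMonoidHom.range = ⊤ := AddMonoidHom.range_eq_top.2 hφ
      rw [this]
      exact Nat.card_congr AddSubgroup.topEquiv.toEquiv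
    rw [hr] at this
    exact this
  have h2 : Nat.card (LinearMap.ker φ) = Nat.card (nilPart η (LinearMap.ker f)) := by
    refine Nat.card_congr
      { toFun := fun x => ⟨⟨x.1.1, ?_⟩, ?_⟩
        invFun := fun z => ⟨⟨z.1.1, ?_⟩, ?_⟩
        left_inv := fun x => rfl
        right_inv := fun z => rfl }
    · have hx : φ x.1 = 0 := x.2
      have : ((φ x.1 : nilPart η N) : N) = 0 := by rw [hx]; rfl
      exact this
    · exact (mem_nilPart_submodule_iff η (LinearMap.ker f)).2 x.1.2
    · exact (mem_nilPart_submodule_iff η (LinearMap.ker f)).1 z.2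
    · have hz : f z.1.1 = 0 := z.1.2
      exact Subtype.ext hz
  rw [← h1, h2]

end Exact

end Fermat.Agent.MAZ.Alg5
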