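/-
Fermat/Agent/MAZ/Alg5/Nakayama.lean  (helper5)

Programme MAZ (S15), brick F-ALG, part 2: **the algebraic step (ALG)** of report 976 §0:

  (DESC) + finite generation  ⇒  ∃ t ∈ 1 + m, t • A ⊆ torsion.

`T` a commutative ring, `r` a prime number, `η : ι → T`; `gen r η : Option ι → T` is the family
`(r, η i)` generating the ideal `m := (r, η i)`.  For a `T`-module `A` which is finitely generated
as an abelian group:

* `exists_annihilator` : if there are `N > 0`, `C` with
    `|N • (A / r ^ k A)_m| ≤ C` for all `k`,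
  then there is `t : T` with `t - 1 ∈ m` and `t • a` torsion for every `a : A`;
* `card_map_nsmul_le_of_hom` : how to obtain such a bound from a homomorphism into a bounded group
  whose kernel is killed by `N` (Kummer map into the Selmer group);
* `smul_eq_zsmul_of_sub_one_mem` : if `c` is an eigenvector of `T` with `η i • c = 0`, then
  `t • c = s • c` for some integer `s ≡ 1 mod r` (so `r ∤ s`).

Mathlib only (+ `NilPart.lean`).
-/
import Mathlib
import Fermat.Agent.MAZ.Alg5.NilPart

set_option autoImplicit false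
set_option linter.style.haveILetI false
set_option linter.unusedSectionVars false

namespace Fermat.Agent.MAZ.Alg5

universe u v w w'

variable {T : Type u} [CommRing T] {ι : Type v} (r : ℕ) (η : ι → T)

/-- The family `(r, η i)`. -/
def gen : Option ι → T := fun o => o.elim (r : T) η

@[simp] theorem gen_none : gen r η none = (r : T) := rfl
@[simp] theorem gen_some (i : ι) : gen r η (some i) = η i := rfl

theorem range_gen : Set.range (gen r η) = insert (r : T) (Set.range η) := by
  ext x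
  constructor
  · rintro ⟨o, rfl⟩
    cases o with
    | none => exact Set.mem_insert _ _
    | some i => exact Set.mem_insert_of_mem _ ⟨i, rfl⟩
  · rintro (rfl | ⟨i, rfl⟩)
    · exact ⟨none, rfl⟩
    · exact ⟨some i, rfl⟩

/-- `c • A` as a submodule. -/
def mulRange (c : T) (A : Type w) [AddCommGroup A] [Module T A] : Submodule T A :=
  LinearMap.range (LinearMap.lsmul T A c)

theorem mem_mulRange_iff {c : T} {A : Type w} [AddCommGroup A] [Module T A] {x : A} :
    x ∈ mulRange c A ↔ ∃ a : A, c • a = x := Iff.rfl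

/-- `N • M_m` as a subgroup of `M`. -/
def nsmulNilPart (N : ℕ) (M : Type w) [AddCommGroup M] [Module T M] : AddSubgroup M :=
  (nilPart η M).toAddSubgroup.map (nsmulAddMonoidHom N)

theorem mem_nsmulNilPart_iff {N : ℕ} {M : Type w} [AddCommGroup M] [Module T M] {x : M} :
    x ∈ nsmulNilPart η N M ↔ ∃ y ∈ nilPart η M, N • y = x := Iff.rfl

/-! ### Finiteness of `A / n A` -/

section Fin

variable (A : Type w) [AddCommGroup A] [Module T A]

theorem finite_quotient_mulRange [Module.Finite ℤ A] {n : ℕ} (hn : 0 < n) :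
    Finite (A ⧸ mulRange ((n : T)) A) := by
  haveI : AddGroup.FG A := Module.Finite.iff_addGroup_fg.1 inferInstance
  haveI : Module.Finite ℤ (A ⧸ mulRange ((n : T)) A) :=
    Module.Finite.iff_addGroup_fg.2
      (AddGroup.fg_of_surjective (f := (mulRange ((n : T)) A).mkQ.toAddMonoidHom)
        (Submodule.mkQ_surjective _))
  refine Module.finite_of_fg_torsion _ ?_
  intro x
  refine ⟨⟨(n : ℤ), ?_⟩, ?_⟩
  · exact mem_nonZeroDivisors_of_ne_zero (by exact_mod_cast hn.ne')
  · obtain ⟨a, rfl⟩ := Submodule.mkQ_surjective _ x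
    show ((n : ℤ) : ℤ) • (mulRange ((n : T)) A).mkQ a = 0
    rw [← map_zsmul, Submodule.mkQ_apply, Submodule.Quotient.mk_eq_zero]
    refine ⟨a, ?_⟩
    show (n : T) • a = (n : ℤ) • a
    rw [Nat.cast_smul_eq_nsmul, natCast_zsmul]

end Fin

/-! ### The counting step -/

section Count

/-- If `Q → P` is a surjection of `T`-modules, `Q` finite, and `P_m` contains an element of
additive order `> C * N`, then `|N • Q_m| > C`. -/
theorem lt_card_nsmulNilPart {Q : Type w} [AddCommGroup Q] [Module T Q] [Finite Q]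
    {P : Type w'} [AddCommGroup P] [Module T P] (h : Q →ₗ[T] P) (hh : Function.Surjective h)
    {y : P} (hy : y ∈ nilPart η P) {N C : ℕ} (hN : 0 < N) (hord : C * N < addOrderOf y) :
    C < Nat.card (nsmulNilPart η N Q) := by
  obtain ⟨x, hx, rfl⟩ := exists_mem_nilPart_of_surjective η h hh hy
  -- the `C + 1` elements `N • (j • x)`
  let f : Fin (C + 1) → nsmulNilPart η N Q := fun j =>
    ⟨N • ((j : ℕ) • x), ⟨(j : ℕ) • x, (nilPart η Q).smul_of_tower_mem _ hx, rfl⟩⟩
  have hf : Function.Injective f := by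
    intro j j' hjj
    have h1 : N • ((j : ℕ) • x) = N • ((j' : ℕ) • x) := congrArg Subtype.val hjj
    have h2 : ((j : ℕ) * N) • h x = ((j' : ℕ) * N) • h x := by
      have := congrArg h h1
      simp only [map_nsmul] at this
      rw [mul_comm, mul_smul, this, mul_comm, mul_smul]
    -- both multiples are `< addOrderOf (h x)`
    have hlt : ∀ i : Fin (C + 1), (i : ℕ) * N < addOrderOf (h x) :=
      fun i => lt_of_le_of_lt (Nat.mul_le_mul_right _ (Nat.lt_succ_iff.1 i.2)) hord
    have h3 := (nsmul_injOn_Iio_addOrderOf (x := h x)) (hlt j) (hlt j') h2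
    exact Fin.ext (Nat.eq_of_mul_eq_mul_right hN h3)
  haveI : Finite (nsmulNilPart η N Q) := inferInstance
  have := Nat.card_le_card_of_injective f hf
  rw [Nat.card_eq_fintype_card, Fintype.card_fin] at this
  exact this

/-- A bound for `|N • G|` from a homomorphism `φ : G → X` into a group with a finite subgroup `S`
containing the image, whose kernel is killed by `N`. -/
theorem card_map_nsmul_le_of_hom {M : Type w} [AddCommGroup M] (G : AddSubgroup M)
    {X : Type w'} [AddCommGroup X] (φ : G →+ X) (S : AddSubgroup X) [Finite S] (N : ℕ)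
    (hφ : ∀ g, φ g ∈ S) (hker : ∀ g : G, φ g = 0 → N • (g : M) = 0) :
    Nat.card (G.map (nsmulAddMonoidHom N)) ≤ Nat.card S := by
  classical
  -- a surjection from `S` (only its part `range φ` matters) onto `N • G`
  let ψ : S → G.map (nsmulAddMonoidHom N) := fun s =>
    if hs : ∃ g : G, φ g = s.1 then ⟨N • (hs.choose : M), ⟨hs.choose.1, hs.choose.2, rfl⟩⟩ else 0
  refine Nat.card_le_card_of_surjective ψ ?_
  rintro ⟨_, g, hg, rfl⟩
  refine ⟨⟨φ ⟨g, hg⟩, hφ _⟩, ?_⟩
  have hs : ∃ g' : G, φ g' = φ ⟨g, hg⟩ := ⟨⟨g, hg⟩, rfl⟩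
  show (if hs : ∃ g' : G, φ g' = φ ⟨g, hg⟩ then
    (⟨N • (hs.choose : M), ⟨hs.choose.1, hs.choose.2, rfl⟩⟩ : G.map (nsmulAddMonoidHom N))
    else 0) = _
  rw [dif_pos hs]
  apply Subtype.ext
  show N • (hs.choose : M) = N • g
  have h0 : φ (hs.choose - ⟨g, hg⟩) = 0 := by rw [map_sub, hs.choose_spec, sub_self]
  have h1 := hker _ h0
  have h2 : ((hs.choose - ⟨g, hg⟩ : G) : M) = (hs.choose : M) - g := rfl
  rw [h2, smul_sub, sub_eq_zero] at h1
  exact h1

end Count

/-! ### The torsion-free case -/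

section TorsionFree

variable {F : Type w} [AddCommGroup F] [Module T F]

/-- In a torsion-free module, a lift to `F / r ^ k F` of a nonzero element of `F / r F` has
additive order exactly `r ^ k`. -/
theorem addOrderOf_eq_pow (hr : r.Prime) (htf : ∀ n : ℕ, 0 < n → ∀ x : F, n • x = 0 → x = 0)
    {k : ℕ} (hk : 0 < k) {x : F} (hx : x ∉ mulRange ((r : T)) F) :
    addOrderOf ((mulRange (((r ^ k : ℕ) : T)) F).mkQ x) = r ^ k := by
  haveI : Fact r.Prime := ⟨hr⟩
  obtain ⟨k, rfl⟩ : ∃ j, k = j + 1 := ⟨k - 1, by omega⟩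
  refine addOrderOf_eq_prime_pow ?_ ?_
  · intro h0
    rw [← map_nsmul, Submodule.mkQ_apply, Submodule.Quotient.mk_eq_zero] at h0
    obtain ⟨z, hz⟩ := h0
    have hz : ((r ^ (k + 1) : ℕ) : T) • z = r ^ k • x := hz
    apply hx
    refine ⟨z, ?_⟩
    show (r : T) • z = x
    -- `r ^ k • (r • z - x) = 0`
    have h1 : (r ^ k) • ((r : T) • z - x) = 0 := by
      rw [smul_sub, ← hz, Nat.cast_smul_eq_nsmul, Nat.cast_smul_eq_nsmul, ← mul_smul, ← pow_succ,
        sub_self]
    exact sub_eq_zero.1 (htf _ (pow_pos hr.pos k) _ h1)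
  · rw [← map_nsmul, Submodule.mkQ_apply, Submodule.Quotient.mk_eq_zero]
    refine ⟨x, ?_⟩
    show ((r ^ (k + 1) : ℕ) : T) • x = r ^ (k + 1) • x
    rw [Nat.cast_smul_eq_nsmul]

end TorsionFree

/-! ### The main theorem -/

section Main

variable (A : Type w) [AddCommGroup A] [Module T A]

/-- The torsion submodule (torsion as an abelian group). -/
def torsionSub : Submodule T A where
  carrier := {a | ∃ n : ℕ, 0 < n ∧ n • a = 0}
  zero_mem' := ⟨1, Nat.one_pos, smul_zero _⟩
  add_mem' := by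
    rintro a b ⟨n, hn, ha⟩ ⟨m, hm, hb⟩
    refine ⟨n * m, Nat.mul_pos hn hm, ?_⟩
    rw [smul_add, mul_comm, mul_smul, ha, smul_zero, mul_comm, mul_smul, hb, smul_zero, add_zero]
  smul_mem' := by
    rintro t a ⟨n, hn, ha⟩
    exact ⟨n, hn, by rw [smul_comm, ha, smul_zero]⟩

theorem mem_torsionSub_iff {a : A} : a ∈ torsionSub (T := T) A ↔ ∃ n : ℕ, 0 < n ∧ n • a = 0 :=
  Iff.rfl

theorem torsionFree_quotient (n : ℕ) (hn : 0 < n) (x : A ⧸ torsionSub (T := T) A)
    (hx : n • x = 0) : x = 0 := by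
  obtain ⟨a, rfl⟩ := Submodule.mkQ_surjective _ x
  rw [← map_nsmul, Submodule.mkQ_apply, Submodule.Quotient.mk_eq_zero] at hx
  obtain ⟨m, hm, hma⟩ := hx
  rw [Submodule.mkQ_apply, Submodule.Quotient.mk_eq_zero]
  exact ⟨m * n, Nat.mul_pos hm hn, by rw [mul_smul, hma]⟩

/-- **(ALG)**: let `A` be a `T`-module, finitely generated as an abelian group, `r` a prime and
`m = (r, η i)`.  If `|N • (A / r ^ k A)_m|` is bounded independently of `k`, then some
`t ∈ 1 + m` maps `A` into its torsion subgroup. -/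
theorem exists_annihilator [Module.Finite ℤ A] (hr : r.Prime) (N C : ℕ) (hN : 0 < N)
    (hdesc : ∀ k : ℕ,
      Nat.card (nsmulNilPart (gen r η) N (A ⧸ mulRange (((r ^ k : ℕ) : T)) A)) ≤ C) :
    ∃ t : T, t - 1 ∈ Ideal.span (insert (r : T) (Set.range η)) ∧
      ∀ a : A, ∃ n : ℕ, 0 < n ∧ n • (t • a) = 0 := by
  -- the torsion-free quotient
  let F := A ⧸ torsionSub (T := T) A
  let πF : A →ₗ[T] F := (torsionSub (T := T) A).mkQ
  have hπF : Function.Surjective πF := Submodule.mkQ_surjective _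
  have htf : ∀ n : ℕ, 0 < n → ∀ x : F, n • x = 0 → x = 0 := torsionFree_quotient A
  haveI : AddGroup.FG A := Module.Finite.iff_addGroup_fg.1 inferInstance
  haveI : Module.Finite ℤ F :=
    Module.Finite.iff_addGroup_fg.2 (AddGroup.fg_of_surjective (f := πF.toAddMonoidHom) hπF)
  -- Step 1: `(F / r F)_m = 0`
  have hr1 : ((r ^ 1 : ℕ) : T) = (r : T) := by rw [pow_one]
  have step1 : nilPart (gen r η) (F ⧸ mulRange ((r : T)) F) = ⊥ := by
    by_contra hne
    obtain ⟨y₁, hy₁, hy₁0⟩ := (Submodule.ne_bot_iff _).1 hne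
    -- choose `k` with `C * N < r ^ k`
    set k := C * N + 1 with hkdef
    have hk : 0 < k := Nat.succ_pos _
    have hlt : C * N < r ^ k :=
      lt_of_lt_of_le (Nat.lt_pow_self hr.one_lt) (Nat.pow_le_pow_right hr.pos (Nat.le_succ _))
    -- the factor map `F / r ^ k F → F / r F`
    have hle : mulRange (((r ^ k : ℕ) : T)) F ≤ mulRange ((r : T)) F := by
      rintro _ ⟨z, rfl⟩
      refine ⟨((r ^ (k - 1) : ℕ) : T) • z, ?_⟩
      show (r : T) • ((r ^ (k - 1) : ℕ) : T) • z = ((r ^ k : ℕ) : T) • z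
      rw [← mul_smul]
      congr 1
      have : k = (k - 1) + 1 := by omega
      rw [this, Nat.add_sub_cancel, pow_succ]
      push_cast
      ring
    let g : (F ⧸ mulRange (((r ^ k : ℕ) : T)) F) →ₗ[T] (F ⧸ mulRange ((r : T)) F) :=
      Submodule.factor hle
    have hg : Function.Surjective g := Submodule.factor_surjective hle
    haveI : Finite (F ⧸ mulRange (((r ^ k : ℕ) : T)) F) :=
      finite_quotient_mulRange F (pow_pos hr.pos k)
    obtain ⟨y, hy, hgy⟩ := exists_mem_nilPart_of_surjective (gen r η) g hg hy₁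
    obtain ⟨x, rfl⟩ := Submodule.mkQ_surjective _ y
    have hx : x ∉ mulRange ((r : T)) F := by
      intro hx
      apply hy₁0
      rw [← hgy]
      show Submodule.factor hle ((mulRange (((r ^ k : ℕ) : T)) F).mkQ x) = 0
      rw [Submodule.factor_mk, Submodule.mkQ_apply, Submodule.Quotient.mk_eq_zero]
      exact hx
    have hord := addOrderOf_eq_pow r hr htf hk hx
    -- the surjection `A / r ^ k A → F / r ^ k F`
    have hle' : mulRange (((r ^ k : ℕ) : T)) A ≤
        (mulRange (((r ^ k : ℕ) : T)) F).comap πF := by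
      rintro _ ⟨z, rfl⟩
      exact ⟨πF z, (map_smul πF _ z).symm⟩
    let h : (A ⧸ mulRange (((r ^ k : ℕ) : T)) A) →ₗ[T] (F ⧸ mulRange (((r ^ k : ℕ) : T)) F) :=
      Submodule.mapQ _ _ πF hle'
    have hh : Function.Surjective h := by
      intro z
      obtain ⟨z', rfl⟩ := Submodule.mkQ_surjective _ z
      obtain ⟨a, rfl⟩ := hπF z'
      exact ⟨Submodule.Quotient.mk a, by simp [h]⟩
    haveI : Finite (A ⧸ mulRange (((r ^ k : ℕ) : T)) A) :=
      finite_quotient_mulRange A (pow_pos hr.pos k)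
    have := lt_card_nsmulNilPart (gen r η) h hh hy hN (C := C) (by rw [hord]; exact hlt)
    exact absurd (hdesc k) (not_le.2 this)
  -- Step 2: `F = m F`
  set I : Ideal T := Ideal.span (insert (r : T) (Set.range η)) with hI
  have step2 : (⊤ : Submodule T F) ≤ I • (⊤ : Submodule T F) := by
    -- `F / m F` is a quotient of `F / r F` on which all generators act as zero
    have hle : mulRange ((r : T)) F ≤ I • (⊤ : Submodule T F) := by
      rintro _ ⟨z, rfl⟩
      exact Submodule.smul_mem_smul (Ideal.subset_span (Set.mem_insert _ _)) Submodule.mem_top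
    let g : (F ⧸ mulRange ((r : T)) F) →ₗ[T] (F ⧸ I • (⊤ : Submodule T F)) := Submodule.factor hle
    have hg : Function.Surjective g := Submodule.factor_surjective hle
    haveI : Finite (F ⧸ mulRange ((r : T)) F) := by
      have := finite_quotient_mulRange (T := T) F hr.pos
      exact this
    have h0 := nilPart_eq_bot_of_surjective (gen r η) g hg step1
    have h1 : nilPart (gen r η) (F ⧸ I • (⊤ : Submodule T F)) = ⊤ := by
      apply nilPart_eq_top_of_smul_eq_zero
      intro o x
      obtain ⟨z, rfl⟩ := Submodule.mkQ_surjective _ x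
      rw [← map_smul, Submodule.mkQ_apply, Submodule.Quotient.mk_eq_zero]
      refine Submodule.smul_mem_smul (Ideal.subset_span ?_) Submodule.mem_top
      rw [← range_gen]
      exact ⟨o, rfl⟩
    intro z _
    have hz : (Submodule.Quotient.mk z : F ⧸ I • (⊤ : Submodule T F)) ∈
        nilPart (gen r η) (F ⧸ I • (⊤ : Submodule T F)) := by rw [h1]; exact Submodule.mem_top
    rw [h0, Submodule.mem_bot, Submodule.Quotient.mk_eq_zero] at hz
    exact hz
  -- Step 3: Nakayama
  have hfg : (⊤ : Submodule T F).FG := by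
    have hZ : (⊤ : Submodule ℤ F).FG := Module.Finite.fg_top
    obtain ⟨s, hs⟩ := hZ
    refine ⟨s, eq_top_iff.2 fun z _ => ?_⟩
    have hz : z ∈ Submodule.span ℤ (s : Set F) := by rw [hs]; exact Submodule.mem_top
    refine Submodule.span_induction (p := fun z _ => z ∈ Submodule.span T (s : Set F))
      (fun x hx => Submodule.subset_span hx) (Submodule.zero_mem _)
      (fun x y _ _ hx hy => Submodule.add_mem _ hx hy) (fun n x _ hx => ?_) hz
    exact Submodule.smul_of_tower_mem _ n hx
  obtain ⟨t, ht, htF⟩ :=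
    Submodule.exists_sub_one_mem_and_smul_eq_zero_of_fg_of_le_smul I ⊤ hfg step2
  refine ⟨t, ht, fun a => ?_⟩
  have h0 : t • πF a = 0 := htF _ Submodule.mem_top
  rw [← map_smul, Submodule.mkQ_apply, Submodule.Quotient.mk_eq_zero] at h0
  exact h0

end Main

/-! ### The eigenvector `c0` -/

section Eigen

variable {J : Type w} [AddCommGroup J] [Module T J]

/-- If the line `ℤ c` is `T`-stable and killed by the `η i`, then `t ∈ 1 + (r, η i)` acts on `c` as
an integer `s ≡ 1 mod r`. -/
theorem smul_eq_zsmul_of_sub_one_mem (c : J) (hstab : ∀ u : T, ∃ s : ℤ, u • c = s • c)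
    (hη : ∀ i, η i • c = 0) {t : T}
    (ht : t - 1 ∈ Ideal.span (insert (r : T) (Set.range η))) :
    ∃ s : ℤ, (r : ℤ) ∣ s - 1 ∧ t • c = s • c := by
  have key : ∀ u ∈ Ideal.span (insert (r : T) (Set.range η)), ∃ s : ℤ, u • c = ((r : ℤ) * s) • c := by
    intro u hu
    refine Submodule.span_induction (p := fun u _ => ∃ s : ℤ, u • c = ((r : ℤ) * s) • c)
      ?_ ?_ ?_ ?_ hu
    · rintro x (rfl | ⟨i, rfl⟩)
      · refine ⟨1, ?_⟩
        rw [mul_one, Nat.cast_smul_eq_nsmul, natCast_zsmul]
      · exact ⟨0, by rw [hη i, mul_zero, zero_smul]⟩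
    · exact ⟨0, by rw [zero_smul, mul_zero, zero_smul]⟩
    · rintro x y _ _ ⟨s, hs⟩ ⟨s', hs'⟩
      exact ⟨s + s', by rw [add_smul, hs, hs', ← add_smul, mul_add]⟩
    · rintro a x _ ⟨s, hs⟩
      obtain ⟨s', hs'⟩ := hstab a
      refine ⟨s * s', ?_⟩
      rw [smul_eq_mul, mul_smul, hs, smul_comm, hs', ← mul_smul, mul_assoc]
  obtain ⟨s, hs⟩ := key _ ht
  refine ⟨1 + (r : ℤ) * s, ⟨s, by ring⟩, ?_⟩
  have : t • c = c + (t - 1) • c := by rw [sub_smul, one_smul]; abel
  rw [this, hs, add_smul, one_smul]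

/-- In particular `r ∤ s`. -/
theorem smul_eq_zsmul_of_sub_one_mem' (hr : r.Prime) (c : J)
    (hstab : ∀ u : T, ∃ s : ℤ, u • c = s • c) (hη : ∀ i, η i • c = 0) {t : T}
    (ht : t - 1 ∈ Ideal.span (insert (r : T) (Set.range η))) :
    ∃ s : ℤ, ¬ (r : ℤ) ∣ s ∧ t • c = s • c := by
  obtain ⟨s, hs, hts⟩ := smul_eq_zsmul_of_sub_one_mem r η c hstab hη ht
  refine ⟨s, fun hdiv => ?_, hts⟩
  have h1 : (r : ℤ) ∣ 1 := by
    have := dvd_sub hdiv hs
    simpa using this
  have h2 : (r : ℤ) = 1 ∨ (r : ℤ) = -1 := Int.isUnit_iff.1 (isUnit_of_dvd_one h1)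
  have h3 : 2 ≤ (r : ℤ) := by exact_mod_cast hr.two_le
  omega

end Eigen

end Fermat.Agent.MAZ.Alg5
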