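/-
Fermat/Agent/MAZ/Alg5/TorsFin.lean  (helper5)

Programme MAZ (S15), brick L-A4: **the torsion of a finitely generated abelian group is finite.**
So `J(ℚ)_tors` is finite as soon as `J(ℚ)` is finitely generated (S17): no reduction argument is
needed.

* `finite_torsion_of_fg` : `AddGroup.FG G → Finite {x : G // ∃ n > 0, n • x = 0}`;
* `exists_card_bound_of_fg` : for a finitely generated subgroup `Q ≤ J` there is a constant `C`
  bounding `|W|` for every subgroup `W ≤ Q` consisting of torsion elements (e.g. `W = G_k^Γ`).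

Mathlib only.
-/
import Mathlib

set_option autoImplicit false
set_option linter.style.haveILetI false

namespace Fermat.Agent.MAZ.Alg5

/-- The torsion elements of a finitely generated abelian group form a finite set. -/
theorem finite_torsion_of_fg (G : Type*) [AddCommGroup G] (hG : AddGroup.FG G) :
    Finite {x : G // ∃ n : ℕ, 0 < n ∧ n • x = 0} := by
  haveI : Module.Finite ℤ G := Module.Finite.iff_addGroup_fg.2 hG
  haveI : IsNoetherian ℤ G := isNoetherian_of_isNoetherianRing_of_finite ℤ G
  -- the torsion submodule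
  let S : Submodule ℤ G := Submodule.torsion ℤ G
  haveI : Module.Finite ℤ S := Module.Finite.of_fg (IsNoetherian.noetherian S)
  haveI : Finite S := Module.finite_of_fg_torsion S (Submodule.torsion_isTorsion (R := ℤ) (M := G))
  refine Finite.of_injective (β := S) (fun x => ⟨x.1, ?_⟩) ?_
  · obtain ⟨n, hn, hx⟩ := x.2
    rw [Submodule.mem_torsion_iff]
    refine ⟨⟨(n : ℤ), mem_nonZeroDivisors_of_ne_zero (by exact_mod_cast hn.ne')⟩, ?_⟩
    show (n : ℤ) • x.1 = 0
    rw [natCast_zsmul, hx]
  · intro x y hxy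
    exact Subtype.ext (congrArg (fun z : S => (z : G)) hxy)

/-- For a finitely generated subgroup `Q` of an abelian group `J` there is a uniform bound for the
cardinality of the torsion subgroups of `Q`. -/
theorem exists_card_bound_of_fg {J : Type*} [AddCommGroup J] (Q : AddSubgroup J)
    (hQ : AddGroup.FG Q) :
    ∃ C : ℕ, 0 < C ∧ ∀ W : AddSubgroup J, W ≤ Q → (∀ x ∈ W, ∃ n : ℕ, 0 < n ∧ n • x = 0) →
      Finite W ∧ Nat.card W ≤ C := by
  haveI := finite_torsion_of_fg Q hQ
  refine ⟨Nat.card {x : Q // ∃ n : ℕ, 0 < n ∧ n • x = 0}, Nat.card_pos_iff.2 ⟨⟨⟨0, 1, Nat.one_pos,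
    smul_zero _⟩⟩, inferInstance⟩, fun W hW htors => ?_⟩
  let f : W → {x : Q // ∃ n : ℕ, 0 < n ∧ n • x = 0} := fun w =>
    ⟨⟨w.1, hW w.2⟩, by
      obtain ⟨n, hn, hx⟩ := htors w.1 w.2
      exact ⟨n, hn, Subtype.ext hx⟩⟩
  have hf : Function.Injective f := by
    intro w w' h
    have : (f w).1.1 = (f w').1.1 := by rw [h]
    exact Subtype.ext this
  exact ⟨Finite.of_injective f hf, Nat.card_le_card_of_injective f hf⟩

end Fermat.Agent.MAZ.Alg5
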